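import Fermat.Agent.S18.Ctx

set_option autoImplicit false
set_option linter.unusedSectionVars false

/-! # S36/C0 : the context

MECHANICAL TWIN of `S18/Ctx.lean` for the context `Ctx0` (`K` any field of characteristic zero such that `A ∩ K` is a DVR: no number field hypothesis, so that `K = K₀ = Fix(I_A)` is allowed). -/

noncomputable section

namespace Fermat.Agent.S36.C0

open Polynomial IntermediateField ModularCurve AlgebraicCurve Fermat.Agent.S18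
open Fermat.Agent.S24 (Kb FN iotaK)

/-- The context: a field `K` of characteristic zero with `A ∩ K` a DVR, embedded in `ℚ̄` by `ι`, containing `ζ_p` and `ζ_N`;
`a, b ∈ F_K` with `A`-integral coefficients, `a ≡ b ≢ 0`; `p ∣ div (a/b)`; `u ∈ K((q))` with
`u^p = a/b`. -/
structure Ctx0 (N : ℕ) [NeZero N] (ℓ p : ℕ) (A : ValuationSubring Kb) where
  hℓ : ℓ.Prime
  hℓN : ¬ ℓ ∣ N
  hA : A.LiesOverPrime ℓ
  hp : p.Prime
  hpℓ : p ≠ ℓ
  K : Type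
  [fK : Field K]
  [czK : CharZero K]
  ι : K →+* Kb
  dvr : IsDiscreteValuationRing ↥(A.comap ι)
  ζ : K
  hζ : IsPrimitiveRoot ζ p
  ζN : K
  hζN : IsPrimitiveRoot ζN N
  a : modularFunctionFieldFullC K N
  b : modularFunctionFieldFullC K N
  ha : IntA A (coeffMap ι a.1)
  hb : IntA A (coeffMap ι b.1)
  hb' : ¬ SmallA A (coeffMap ι b.1)
  hab : SmallA A (coeffMap ι a.1 - coeffMap ι b.1)
  hord : ∀ v : Place Kb (FN N), (p : ℤ) ∣ v.ord (toFN ι N (a / b))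
  u : LaurentSeries K
  hu : u ^ p = (a / b).1

attribute [instance] Ctx0.fK Ctx0.czK

namespace Ctx0

variable {N : ℕ} [NeZero N] {ℓ p : ℕ} {A : ValuationSubring Kb} (𝒞 : Ctx0 N ℓ p A)

/-- the line. -/
def Λ (_𝒞 : Ctx0 N ℓ p A) : Line := lineOf ℓ

/-- the DVR `R = A ∩ K`. -/
def R : ValuationSubring 𝒞.K := A.comap 𝒞.ι

/-- `F_K`. -/
abbrev FK : IntermediateField 𝒞.K (LaurentSeries 𝒞.K) := modularFunctionFieldFullC 𝒞.K N

/-- `E₀ = F_K(x)`. -/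
def E0 : IntermediateField 𝒞.K (LaurentSeries 𝒞.K) :=
  IntermediateField.adjoin 𝒞.K (divisorExpansionsC 𝒞.K N ∪ {xK 𝒞.K 𝒞.Λ})

/-- `E = F_K(x, u)`. -/
def E : IntermediateField 𝒞.K (LaurentSeries 𝒞.K) :=
  IntermediateField.adjoin 𝒞.K (divisorExpansionsC 𝒞.K N ∪ {xK 𝒞.K 𝒞.Λ, 𝒞.u})

theorem x_mem : xK 𝒞.K 𝒞.Λ ∈ 𝒞.E :=
  IntermediateField.subset_adjoin _ _ (Or.inr (Or.inl rfl))

theorem u_mem : 𝒞.u ∈ 𝒞.E :=
  IntermediateField.subset_adjoin _ _ (Or.inr (Or.inr rfl))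

/-- `x` as an element of `E`. -/
def x : 𝒞.E := ⟨xK 𝒞.K 𝒞.Λ, 𝒞.x_mem⟩

/-- `u` as an element of `E`. -/
def uE : 𝒞.E := ⟨𝒞.u, 𝒞.u_mem⟩

/-- the "idempotent" `e = (1 + u + ⋯ + u^(p-1))/p`. -/
def e : 𝒞.E := (∑ i ∈ Finset.range p, 𝒞.uE ^ i) / (p : 𝒞.E)

/-- `K → ℂ`. -/
def jK : 𝒞.K →+* ℂ := iotaK.comp 𝒞.ι

/-- the elliptic value `c` as an element of `R`. -/
def cR : 𝒞.R := (𝒞.Λ.c : 𝒞.R)

theorem isDVR : IsDiscreteValuationRing 𝒞.R := 𝒞.dvr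

end Ctx0

end Fermat.Agent.S36.C0
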