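import Fermat.Agent.S18.B.Fin
import Fermat.Agent.S36.C0.HSide

set_option autoImplicit false
set_option linter.unusedSectionVars false

/-! # S36/C0 : Fin

MECHANICAL TWIN of `S18/B/Fin.lean` for the context `Ctx0` (`K` any field of characteristic zero such that `A ∩ K` is a DVR: no number field hypothesis, so that `K = K₀ = Fix(I_A)` is allowed). -/

noncomputable section

namespace Fermat.Agent.S36.C0

open Polynomial IntermediateField ModularCurve AlgebraicCurve Fermat.Agent.S18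
open Fermat.Agent.S24 (Kb FN iotaK)

namespace Ctx0

variable {N : ℕ} [NeZero N] {ℓ p : ℕ} {A : ValuationSubring Kb} (𝒞 : Ctx0 N ℓ p A)

/-- the generators `j_d` in `E`. -/
def finS : Set 𝒞.E := {y | (y : LaurentSeries 𝒞.K) ∈ divisorExpansionsC 𝒞.K N}

theorem fin_finite_finS : 𝒞.finS.Finite :=
  (Fin.finite_divisorExpansionsC 𝒞.K N).preimage Subtype.val_injective.injOn

theorem fin_incFE_mem (f : 𝒞.FK) :
    𝒞.incFE f ∈ Subfield.closure (Set.range (algebraMap 𝒞.K 𝒞.E) ∪ 𝒞.finS) := by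
  have key : ∀ y : LaurentSeries 𝒞.K,
      y ∈ IntermediateField.adjoin 𝒞.K (divisorExpansionsC 𝒞.K N) →
      ∃ g : 𝒞.E, (g : LaurentSeries 𝒞.K) = y ∧
        g ∈ Subfield.closure (Set.range (algebraMap 𝒞.K 𝒞.E) ∪ 𝒞.finS) := by
    intro y hy
    induction hy using IntermediateField.adjoin_induction with
    | mem y hy =>
      exact ⟨𝒞.incFE ⟨y, IntermediateField.subset_adjoin _ _ hy⟩, rfl,
          Subfield.subset_closure (Or.inr hy)⟩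
    | algebraMap r =>
      exact ⟨algebraMap 𝒞.K 𝒞.E r, rfl, Subfield.subset_closure (Or.inl ⟨_, rfl⟩)⟩
    | add y z _ _ h1 h2 =>
      obtain ⟨g1, rfl, h1⟩ := h1
      obtain ⟨g2, rfl, h2⟩ := h2
      exact ⟨g1 + g2, rfl, add_mem h1 h2⟩
    | inv y _ h1 =>
      obtain ⟨g1, rfl, h1⟩ := h1
      exact ⟨g1⁻¹, rfl, inv_mem h1⟩
    | mul y z _ _ h1 h2 =>
      obtain ⟨g1, rfl, h1⟩ := h1
      obtain ⟨g2, rfl, h2⟩ := h2
      exact ⟨g1 * g2, rfl, mul_mem h1 h2⟩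
  obtain ⟨g, hg, hmem⟩ := key f.1 f.2
  have : g = 𝒞.incFE f := Subtype.ext hg
  rwa [this] at hmem

theorem fin_x_ne_zero : 𝒞.x ≠ 0 := by
  intro h
  have h1 : xK 𝒞.K 𝒞.Λ = 0 := congrArg Subtype.val h
  have h2 := order_xK 𝒞.K 𝒞.Λ
  rw [h1, HahnSeries.order_zero] at h2
  omega

theorem fin_aeval_Ap_ne_zero : aeval 𝒞.x 𝒞.Λ.Ap ≠ 0 := by
  rcases 𝒞.Λ_eq with hΛ | hΛ
  · rw [hΛ]
    simpa [line2] using 𝒞.fin_x_ne_zero
  · rw [hΛ]
    simpa [line3] using 𝒞.fin_x_ne_zero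

theorem fin_modEq (y : 𝒞.E) (hy : y ∈ 𝒞.finS) :
    ∃ P : (ℚ[X])[X], P.Monic ∧ P.eval₂ (Polynomial.eval₂RingHom
      ((algebraMap 𝒞.K 𝒞.E).comp (algebraMap ℚ 𝒞.K)) (𝒞.incFE (HSide.jK0 𝒞.K N))) y = 0 := by
  obtain ⟨d, hd0, hd, hy⟩ := hy
  obtain ⟨P, hP, h0⟩ := Fin.exists_modEq 𝒞.K d
  refine ⟨P, hP, ?_⟩
  apply Subtype.val_injective
  have h3 := hom_eval₂ P (Polynomial.eval₂RingHom
      ((algebraMap 𝒞.K 𝒞.E).comp (algebraMap ℚ 𝒞.K)) (𝒞.incFE (HSide.jK0 𝒞.K N)))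
      𝒞.E.val.toRingHom y
  have h5 : 𝒞.E.val.toRingHom y = qExpand 𝒞.K d (jqModC 𝒞.K) := hy
  rw [h5] at h3
  refine Eq.trans h3 ?_
  refine Eq.trans ?_ h0
  congr 1
  apply Polynomial.ringHom_ext
  · intro a
    have : ∀ f g : ℚ →+* LaurentSeries 𝒞.K, f a = g a := fun f g => by
      rw [Subsingleton.elim f g]
    exact this ((𝒞.E.val.toRingHom.comp (Polynomial.eval₂RingHom
      ((algebraMap 𝒞.K 𝒞.E).comp (algebraMap ℚ 𝒞.K)) (𝒞.incFE (HSide.jK0 𝒞.K N)))).comp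
        Polynomial.C)
      ((Polynomial.eval₂RingHom ((algebraMap 𝒞.K (LaurentSeries 𝒞.K)).comp (algebraMap ℚ 𝒞.K))
        (jqModC 𝒞.K)).comp Polynomial.C)
  · rw [coe_eval₂RingHom, eval₂_X, RingHom.comp_apply, coe_eval₂RingHom, eval₂_X]
    rfl

/-- task B3. `E = K(x)(j_d, u)`, each generator is algebraic over `K(x)`: `j = B(x)/A(x) ∈ K(x)`
(`xK_rel`), `j_d` is algebraic over `K(j)` (modular polynomial; S24 `degree_isAlgebraic` gives it over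
`ℚ̄`, S28 has the integral modular equation over `ℤ`), `u^p ∈ F_K`. -/
theorem finiteDimensional : FiniteDimensional 𝒞.K⟮𝒞.x⟯ 𝒞.E := by
  refine Fin.finiteDimensional_abstract ((algebraMap 𝒞.K 𝒞.E).comp (algebraMap ℚ 𝒞.K)) 𝒞.x
    (𝒞.incFE (HSide.jK0 𝒞.K N)) 𝒞.uE 𝒞.Λ.Ap 𝒞.Λ.Bp 𝒞.fin_aeval_Ap_ne_zero 𝒞.rel_E 𝒞.finS
    𝒞.fin_finite_finS 𝒞.fin_modEq p 𝒞.hp.pos ?_ ?_
  · have h : 𝒞.uE ^ p = 𝒞.incFE (𝒞.a / 𝒞.b) := Subtype.ext 𝒞.hu
    rw [h]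
    exact 𝒞.fin_incFE_mem _
  · rw [eq_top_iff, ← 𝒞.closure_eq_top, Subfield.closure_le]
    rintro y (⟨f, rfl⟩ | hy)
    · exact Subfield.closure_mono Set.subset_union_left (𝒞.fin_incFE_mem f)
    · exact Subfield.subset_closure (Or.inr hy)

end Ctx0

end Fermat.Agent.S36.C0
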