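import Fermat.Agent.S18.B.Irr
import Fermat.Agent.S36.C0.Ctx

set_option autoImplicit false
set_option linter.unusedSectionVars false

/-! # S36/C0 : Irr

MECHANICAL TWIN of `S18/B/Irr.lean` for the context `Ctx0` (`K` any field of characteristic zero such that `A ∩ K` is a DVR: no number field hypothesis, so that `K = K₀ = Fix(I_A)` is allowed). -/

noncomputable section

namespace Fermat.Agent.S36.C0

open Polynomial IntermediateField ModularCurve AlgebraicCurve Fermat.Agent.S18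
open Fermat.Agent.S24 (Kb FN iotaK)

namespace Ctx0

variable {N : ℕ} [NeZero N] {ℓ p : ℕ} {A : ValuationSubring Kb} (𝒞 : Ctx0 N ℓ p A)

/-- task B6. general lemma: if `y ∈ E ⊆ K((q))` has `q`-order `±1` then `X^n - y` is irreducible over
`E` for all `n ≥ 1` (e.g. `X^n - y` is irreducible over `K((q))`: Eisenstein over `K[[q]]` for `y` or
`y⁻¹`; a fortiori over the subfield `E`). -/
theorem irr0 : Irreducible (X ^ N - C 𝒞.x : 𝒞.E[X]) :=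
  Irr.irreducible_descend 𝒞.E 𝒞.x (Nat.pos_of_ne_zero (NeZero.ne N))
    (Irr.irreducible_of_order_neg_one _ (order_xK 𝒞.K 𝒞.Λ) (Nat.pos_of_ne_zero (NeZero.ne N)))

theorem Λ_ec_pos : 0 < 𝒞.Λ.ec := by
  unfold Ctx0.Λ lineOf
  split_ifs <;> simp [line2, line3]

/-- task B6. -/
theorem irrc : Irreducible
    (X ^ 𝒞.Λ.ec - C (𝒞.x - algebraMap 𝒞.K 𝒞.E (algebraMap 𝒞.R 𝒞.K 𝒞.cR)) : 𝒞.E[X]) := by
  refine Irr.irreducible_descend 𝒞.E _ 𝒞.Λ_ec_pos ?_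
  have h1 : ((𝒞.x - algebraMap 𝒞.K 𝒞.E (algebraMap 𝒞.R 𝒞.K 𝒞.cR) : 𝒞.E) : LaurentSeries 𝒞.K) =
      xK 𝒞.K 𝒞.Λ - HahnSeries.C (algebraMap 𝒞.R 𝒞.K 𝒞.cR) := by
    rw [AddSubgroupClass.coe_sub]
    congr 1
    rw [IntermediateField.coe_algebraMap_apply, HahnSeries.algebraMap_apply',
      ← HahnSeries.ofPowerSeries_C]
    rfl
  rw [h1]
  exact Irr.irreducible_of_order_neg_one _
    (Irr.order_sub_C _ (order_xK 𝒞.K 𝒞.Λ) (algebraMap 𝒞.R 𝒞.K 𝒞.cR)) 𝒞.Λ_ec_pos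

/-- task B6. -/
theorem irrinf : Irreducible (X ^ N - C 𝒞.x⁻¹ : 𝒞.E[X]) := by
  refine Irr.irreducible_descend 𝒞.E 𝒞.x⁻¹ (Nat.pos_of_ne_zero (NeZero.ne N)) ?_
  have hx : (xK 𝒞.K 𝒞.Λ).order = -1 := order_xK 𝒞.K 𝒞.Λ
  have hx0 : xK 𝒞.K 𝒞.Λ ≠ 0 := by
    intro h
    rw [h] at hx
    simp at hx
  have hinv : (xK 𝒞.K 𝒞.Λ)⁻¹.order = 1 := by
    have h1 := HahnSeries.order_mul hx0 (inv_ne_zero hx0)
    rw [mul_inv_cancel₀ hx0, HahnSeries.order_one, hx] at h1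
    omega
  exact Irr.irreducible_of_order_one _ hinv (Nat.pos_of_ne_zero (NeZero.ne N))

end Ctx0

end Fermat.Agent.S36.C0
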