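import Fermat.Agent.S18.B.Trans
import Fermat.Agent.S36.C0.Ctx

set_option autoImplicit false
set_option linter.unusedSectionVars false

/-! # S36/C0 : Trans

MECHANICAL TWIN of `S18/B/Trans.lean` for the context `Ctx0` (`K` any field of characteristic zero such that `A ∩ K` is a DVR: no number field hypothesis, so that `K = K₀ = Fix(I_A)` is allowed). -/

noncomputable section

namespace Fermat.Agent.S36.C0

open Polynomial IntermediateField ModularCurve AlgebraicCurve Fermat.Agent.S18
open Fermat.Agent.S24 (Kb FN iotaK)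

namespace Ctx0

variable {N : ℕ} [NeZero N] {ℓ p : ℕ} {A : ValuationSubring Kb} (𝒞 : Ctx0 N ℓ p A)

/-- task B4. an element of `K((q))` algebraic over `K` is constant. -/
theorem hconst : ∀ y : 𝒞.E, IsAlgebraic 𝒞.K y → y ∈ (algebraMap 𝒞.K 𝒞.E).range := by
  intro y hy
  have h1 : IsAlgebraic 𝒞.K (y : LaurentSeries 𝒞.K) := by
    have := hy.algebraMap (A := LaurentSeries 𝒞.K)
    exact this
  obtain ⟨c, hc⟩ := trans_const _ h1
  exact ⟨c, Subtype.ext hc⟩

/-- task B2. `x = q⁻¹ + ⋯` has order `-1`, so it is not constant. -/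
theorem x_transcendental : Transcendental 𝒞.K 𝒞.x := by
  intro h
  obtain ⟨c, hc⟩ := 𝒞.hconst _ h
  have h1 : algebraMap 𝒞.K (LaurentSeries 𝒞.K) c = xK 𝒞.K 𝒞.Λ := congrArg Subtype.val hc
  have h2 := order_xK 𝒞.K 𝒞.Λ
  rw [← h1, algebraMap_laurentSeries_eq_single] at h2
  by_cases hc0 : c = 0
  · rw [hc0, HahnSeries.single_eq_zero, HahnSeries.order_zero] at h2
    omega
  · rw [HahnSeries.order_single hc0] at h2
    omega

end Ctx0

end Fermat.Agent.S36.C0
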