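import Fermat.Agent.S34.V2.Tame
import Fermat.Agent.S36.C0.Trans
import Fermat.Agent.S36.C0.Units
import Fermat.Agent.S36.C0.Irr
import Fermat.Agent.S36.C0.Fin
import Fermat.Agent.S36.C0.VSide

set_option autoImplicit false
set_option linter.unusedSectionVars false

/-! # S36/C0 : the trivial context, `IsTameP1`  (MECHANICAL TWIN of the second half of `S34/V2/Tame.lean` for `Ctx0`) -/

noncomputable section

namespace Fermat.Agent.S36.C0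

open ModularCurve Polynomial IntermediateField AlgebraicCurve Fermat.Agent.S18 Fermat.Agent.S18.V
open Fermat.Agent.S24 (Kb FN)
open Fermat.Agent.S34.V2

/-! ### the trivial context -/

instance instDVRCtx0 {N : ℕ} [NeZero N] {ℓ p : ℕ} {A : ValuationSubring Kb} (𝒞 : Ctx0 N ℓ p A) :
    IsDiscreteValuationRing 𝒞.R := 𝒞.isDVR

/-- the context with `a = b = u = 1`. -/
def trivCtx0 (N : ℕ) [NeZero N] (ℓ p : ℕ) (A : ValuationSubring Kb) (hℓ : ℓ.Prime) (hℓN : ¬ ℓ ∣ N)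
    (hA : A.LiesOverPrime ℓ) (hp : p.Prime) (hpℓ : p ≠ ℓ) (K : Type) [Field K] [CharZero K]
    (ι : K →+* Kb) (dvr : IsDiscreteValuationRing ↥(A.comap ι)) (ζ : K) (hζ : IsPrimitiveRoot ζ p) (ζN : K)
    (hζN : IsPrimitiveRoot ζN N) : Ctx0 N ℓ p A where
  hℓ := hℓ
  hℓN := hℓN
  hA := hA
  hp := hp
  hpℓ := hpℓ
  K := K
  ι := ι
  dvr := dvr
  ζ := ζ
  hζ := hζ
  ζN := ζN
  hζN := hζN
  a := 1
  b := 1
  ha := tame_intA_one ι A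
  hb := tame_intA_one ι A
  hb' := tame_not_smallA_one ι A
  hab := by
    intro n
    rw [sub_self, HahnSeries.coeff_zero]
    rw [ValuationSubring.mem_nonunits_iff, map_zero]
    exact zero_lt_one
  hord := by
    intro v
    rw [div_one, map_one, v.ord_one]
    exact dvd_zero _
  u := 1
  hu := by
    rw [one_pow, div_one]
    rfl

variable {N : ℕ} [NeZero N] {ℓ p : ℕ} {A : ValuationSubring Kb} (𝒞 : Ctx0 N ℓ p A)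

theorem Ctx0.E_le_EE0 (hu : 𝒞.u ∈ 𝒞.E0) : 𝒞.E ≤ EE0 𝒞.K N (xK 𝒞.K 𝒞.Λ) := by
  refine IntermediateField.adjoin_le_iff.2 ?_
  rintro y (hy | hy | hy)
  · exact IntermediateField.subset_adjoin _ _ (Or.inl hy)
  · exact IntermediateField.subset_adjoin _ _ (Or.inr hy)
  · rw [Set.mem_singleton_iff] at hy
    rw [hy]
    exact hu

theorem Ctx0.isChart (hu : 𝒞.u ∈ 𝒞.E0) :
    IsChart (vdata 𝒞.R 𝒞.K) 𝒞.x (inc 𝒞.K (xK 𝒞.K 𝒞.Λ)) := by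
  haveI : Fact ℓ.Prime := ⟨𝒞.hℓ⟩
  have hFM : S18.V.FK 𝒞.K N ≤ 𝒞.E :=
    IntermediateField.adjoin.mono 𝒞.K _ _ Set.subset_union_left
  have H' : VHyp 𝒞.R N ℓ (𝒞.x : LaurentSeries 𝒞.K) := 𝒞.vhyp
  exact ⟨𝒞.x_transcendental, 𝒞.finiteDimensional, 𝒞.vhyp.isGauss_x,
    H'.distinctRed hFM (Ctx0.E_le_EE0 𝒞 hu)⟩

theorem Ctx0.isTameP1 (hu : 𝒞.u ∈ 𝒞.E0) :
    IsTameP1 (vdata 𝒞.R 𝒞.K) 𝒞.x (inc 𝒞.K (xK 𝒞.K 𝒞.Λ)) ℂ 𝒞.jK 𝒞.cR N 𝒞.Λ.ec N where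
  chart := Ctx0.isChart 𝒞 hu
  hc := 𝒞.isUnit_c
  he0 := 𝒞.isUnit_N
  hec := 𝒞.isUnit_ec
  heinf := 𝒞.isUnit_N
  hirr0 := 𝒞.irr0
  hirrc := 𝒞.irrc
  hirrinf := 𝒞.irrinf
  Hgen := 𝒞.Hgen
  H0 := 𝒞.H0
  Hc := 𝒞.Hc
  Hinf := 𝒞.Hinf

end Fermat.Agent.S36.C0
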