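import Fermat.Agent.S34.V2.ConcB
import Fermat.Agent.S36.C0.Tame

set_option autoImplicit false
set_option linter.unusedSectionVars false

/-! # S36/C0 : the concrete two-level context over `Ctx0`  (MECHANICAL TWIN of `S34/V2/Conc.lean`, `ConcB.lean`)

OUTPUT: `exists_two0` = `V2.exists_two'` for ANY `(K, ι)` of characteristic zero with `A ∩ K` a DVR (e.g. `K = K₀ = Fix(I_A)`). -/

noncomputable section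

namespace Fermat.Agent.S36.C0

open ModularCurve Polynomial IntermediateField AlgebraicCurve Fermat.Agent.S18 Fermat.Agent.S18.V
open Fermat.Agent.S24 (Kb FN)
open Fermat.Agent.S34 Fermat.Agent.S34.V2

variable {M q p : ℕ} [NeZero M] [NeZero q] {A : ValuationSubring Kb} (𝒞 : Ctx0 M q p A)

/-! ### V2-ConcA : the inputs of `instTwo` -/

theorem Ctx0.u_mem_E0 (hu : 𝒞.u = 1) : 𝒞.u ∈ 𝒞.E0 := by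
  rw [hu]
  exact one_mem _

/-- (`IntermediateField.adjoin_le_iff`; the generators are in `FK K M` by `IntermediateField.subset_adjoin`, `hX`, `one_mem`.) -/
theorem Ctx0.E_le_FK (hu : 𝒞.u = 1) (hX : xK 𝒞.K 𝒞.Λ ∈ S18.V.FK 𝒞.K M) : 𝒞.E ≤ S18.V.FK 𝒞.K M := by
  unfold Ctx0.E
  rw [IntermediateField.adjoin_le_iff]
  rintro y (hy | hy | hy)
  · exact IntermediateField.subset_adjoin _ _ hy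
  · rw [hy]
    exact hX
  · rw [Set.mem_singleton_iff.1 hy, hu]
    exact one_mem _

theorem Ctx0.E_le_FKq (hu : 𝒞.u = 1) (hX : xK 𝒞.K 𝒞.Λ ∈ S18.V.FK 𝒞.K M) : 𝒞.E ≤ S18.V.FK 𝒞.K (M * q) :=
  (Ctx0.E_le_FK 𝒞 hu hX).trans (Mod.FK_le M q)

/-- (as in the proof of `S18.Ctx0.vhyp`.) -/
theorem Ctx0.cR_xK : S18.V.cR 𝒞.R 𝒞.K (xK 𝒞.R 𝒞.Λ) = xK 𝒞.K 𝒞.Λ := by
  rw [xK, xK, S18.V.cR, coeffMap_coeffMap]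
  exact coeffMap_congr (RingHom.ext_int _ _) _

theorem Ctx0.cR_xK_mem : S18.V.cR 𝒞.R 𝒞.K (xK 𝒞.R 𝒞.Λ) ∈ 𝒞.E := by
  rw [Ctx0.cR_xK]
  exact 𝒞.x_mem

include 𝒞 in
theorem Ctx0.conc_not_sq_dvd : ¬ q ^ 2 ∣ M * q := by
  intro h
  rw [pow_two] at h
  exact 𝒞.hℓN (Nat.dvd_of_mul_dvd_mul_right 𝒞.hℓ.pos h)

/-- (`Mod.out_W_invol`; `q ∣ M * q`, `¬ q ^ 2 ∣ M * q` from `𝒞.hℓN`.) -/
theorem Ctx0.w_w (z : ↥(S18.V.FK 𝒞.K (M * q))) :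
    Mod.wQ 𝒞.K (M * q) q (Mod.wQ 𝒞.K (M * q) q z) = z :=
  Mod.out_W_invol 𝒞.K (M * q) q 𝒞.hℓ (dvd_mul_left q M) (Ctx0.conc_not_sq_dvd 𝒞) z

/-- (`Mod.out_W_low`; `M * q / q = M`; `IntermediateField.coe_inclusion`.) -/
theorem Ctx0.w_low (hu : 𝒞.u = 1) (hX : xK 𝒞.K 𝒞.Λ ∈ S18.V.FK 𝒞.K M) (y : ↥𝒞.E) :
    (Mod.wQ 𝒞.K (M * q) q (IntermediateField.inclusion (Ctx0.E_le_FKq 𝒞 hu hX) y)).1 =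
      qExpand 𝒞.K q y.1 := by
  have h := Mod.out_W_low 𝒞.K (M * q) q 𝒞.hℓ (dvd_mul_left q M) (Ctx0.conc_not_sq_dvd 𝒞)
    (IntermediateField.inclusion (Ctx0.E_le_FKq 𝒞 hu hX) y) (by
      rw [Nat.mul_div_cancel _ 𝒞.hℓ.pos, IntermediateField.coe_inclusion]
      exact Ctx0.E_le_FK 𝒞 hu hX y.2)
  rw [IntermediateField.coe_inclusion] at h
  exact h

/-- (`Mod.degLE 𝒞.ι M q 𝒞.hℓ 𝒞.hℓN`, and `FK K M ≤ 𝒞.E` (`𝒞.FK_le_E`): the coefficients of the relation lie in the bigger field.) -/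
theorem Ctx0.degLE : Mod.DegLE (𝒞.E : Set (LaurentSeries 𝒞.K)) (S18.V.FK 𝒞.K (M * q)) (q + 1) := by
  intro v hv
  obtain ⟨c, hc, hc0, hsum⟩ := Mod.degLE 𝒞.ι M q 𝒞.hℓ 𝒞.hℓN v hv
  exact ⟨c, fun a => 𝒞.FK_le_E (hc a), hc0, hsum⟩

/-- (`frob_congr_int q 𝒞.hℓ 𝒞.not_isUnit_ℓ (xZ 𝒞.Λ)`, `xK = coeffMap (Int.castRingHom _) (xZ _)`, `Ctx0.cR_xK`.) -/
theorem Ctx0.hfrob :
    qExpand 𝒞.K q (S18.V.cR 𝒞.R 𝒞.K (xK 𝒞.R 𝒞.Λ)) - S18.V.cR 𝒞.R 𝒞.K (xK 𝒞.R 𝒞.Λ) ^ q ∈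
      (gaussL 𝒞.R 𝒞.K).nonunits := by
  rw [Ctx0.cR_xK]
  exact frob_congr_int q 𝒞.hℓ 𝒞.not_isUnit_ℓ (xZ 𝒞.Λ)

/-- the algebra structure of `F_{Mq,K}` over `𝒞.E`. -/
abbrev Ctx0.alg (hu : 𝒞.u = 1) (hX : xK 𝒞.K 𝒞.Λ ∈ S18.V.FK 𝒞.K M) : Algebra ↥𝒞.E ↥(S18.V.FK 𝒞.K (M * q)) :=
  algIncl (Ctx0.E_le_FKq 𝒞 hu hX)

/-- the concrete two-level context. -/
def Ctx0.two (hu : 𝒞.u = 1) (hX : xK 𝒞.K 𝒞.Λ ∈ S18.V.FK 𝒞.K M) :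
    letI := Ctx0.alg 𝒞 hu hX
    Two 𝒞.R 𝒞.K q ↥𝒞.E ↥(S18.V.FK 𝒞.K (M * q)) :=
  instTwo (Ctx0.E_le_FKq 𝒞 hu hX) (fun _ hz => InQF.of_mem_FK hz) (Mod.wQ 𝒞.K (M * q) q) (Ctx0.w_w 𝒞)
    (Ctx0.w_low 𝒞 hu hX) (Ctx0.degLE 𝒞) (xK 𝒞.R 𝒞.Λ) (Ctx0.cR_xK_mem 𝒞) (VSide.order_xR 𝒞.R 𝒞.Λ).1
    (by rw [(VSide.order_xR 𝒞.R 𝒞.Λ).2]; exact isUnit_one) 𝒞.hℓ 𝒞.not_isUnit_ℓ (Ctx0.hfrob 𝒞)

theorem exists_twoC {M q p : ℕ} [NeZero M] [NeZero q] {A : ValuationSubring Kb} (𝒞 : Ctx0 M q p A)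
    (hu : 𝒞.u = 1) (hr : (lineOf q).r ∣ M) {ϖ : 𝒞.R} (hϖ : Irreducible ϖ) :
    ∃ (E : Type) (_ : Field E) (_ : Algebra 𝒞.K E) (_ : Algebra E ↥(FK 𝒞.K (M * q)))
      (_ : IsScalarTower 𝒞.K E ↥(FK 𝒞.K (M * q))) (T : Two 𝒞.R 𝒞.K q E ↥(FK 𝒞.K (M * q))),
      IsConc M q T ∧ Chart1 𝒞.K ϖ T.x T.VE ∧ Chart1 𝒞.K ϖ T.x⁻¹ T.VE := by
  have hX : xK 𝒞.K 𝒞.Λ ∈ FK 𝒞.K M := Mod.out_X 𝒞.K q M hr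
  let _ := Ctx0.alg 𝒞 hu hX
  have htow : IsScalarTower 𝒞.K ↥𝒞.E ↥(FK 𝒞.K (M * q)) := algIncl_tower _
  have : Fact q.Prime := ⟨𝒞.hℓ⟩
  set T := Ctx0.two 𝒞 hu hX with hT
  have hTx : T.x = 𝒞.x := Subtype.ext (Ctx0.cR_xK 𝒞)
  have hV : ∀ y, InO 𝒞.K ϖ 𝒞.x y ↔ y ∈ T.VE := fun y =>
    inO_iff_gauss (xM := 𝒞.x) 𝒞.vhyp 𝒞.FK_le_E (Ctx0.E_le_FK 𝒞 hu hX) 𝒞.finiteDimensional hϖ y
  have hmem : rE 𝒞.R 𝒞.K ↥𝒞.E ϖ ∈ T.VE.nonunits := T.rE_mem_VE_nonunits.mpr hϖ.not_isUnit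
  have hunif : ∀ z ∈ T.VE.nonunits, (rE 𝒞.R 𝒞.K ↥𝒞.E ϖ)⁻¹ * z ∈ T.VE := by
    intro z hz
    have h1 := T.div_unif_E hϖ hz
    rwa [div_eq_mul_inv, mul_comm z] at h1
  refine ⟨↥𝒞.E, inferInstance, inferInstance, Ctx0.alg 𝒞 hu hX, htow, T, ?_, ?_, ?_⟩
  · exact
    { jF_eq := fun z => rfl
      w_eq := fun z => rfl
      jE_x := Ctx0.cR_xK 𝒞
      jE_mem := fun y => Ctx0.E_le_FK 𝒞 hu hX y.2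
      jE_surj := fun f hf => ⟨⟨f, 𝒞.FK_le_E hf⟩, rfl⟩ }
  · rw [hTx]
    exact chart1_fin (Ctx0.isTameP1 𝒞 (Ctx0.u_mem_E0 𝒞 hu)) hϖ T.VE hV hmem hunif
  · rw [hTx]
    exact chart1_inf (Ctx0.isTameP1 𝒞 (Ctx0.u_mem_E0 𝒞 hu)) hϖ T.VE hV hmem hunif

/-- the same for an explicit `(K, ι)`. -/
theorem exists_two0 (M q p : ℕ) [NeZero M] [NeZero q] (hq : q.Prime) (hqM : ¬ q ∣ M)
    (hr : (lineOf q).r ∣ M) (A : ValuationSubring Kb) (hA : A.LiesOverPrime q) (hp : p.Prime)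
    (hpq : p ≠ q) (K : Type) [Field K] [CharZero K] (ι : K →+* Kb) (ζ : K)
    (hζ : IsPrimitiveRoot ζ p) (ζM : K) (hζM : IsPrimitiveRoot ζM M)
    [dvr : IsDiscreteValuationRing ↥(A.comap ι)] {ϖ : ↥(A.comap ι)} (hϖ : Irreducible ϖ) :
    ∃ (E : Type) (_ : Field E) (_ : Algebra K E) (_ : Algebra E ↥(FK K (M * q)))
      (_ : IsScalarTower K E ↥(FK K (M * q))) (T : Two ↥(A.comap ι) K q E ↥(FK K (M * q))),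
      IsConc M q T ∧ Chart1 K ϖ T.x T.VE ∧ Chart1 K ϖ T.x⁻¹ T.VE :=
  exists_twoC (trivCtx0 M q p A hq hqM hA hp hpq K ι dvr ζ hζ ζM hζM) rfl hr hϖ

end Fermat.Agent.S36.C0
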