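import Fermat.Agent.S36.C0.ThreeA
import Fermat.Agent.S36.AuxL.DegAlpha

set_option autoImplicit false
set_option linter.unusedSectionVars false
set_option linter.style.haveILetI false

/-!
# S36/C0 : inputs of the CONCRETE three-level context   (tasks C0-Beta, C0-WAlpha, C0-Deg, C0-ToFN, C0-Rho)

`K` any field of characteristic zero, `ι : K →+* ℚ̄`; levels `M`, `M * q`, `M * q * q` (`q ∤ M`).
`F1 = ↥(FK K (M * q))`, `F = ↥(FK K (M * q * q))`, `α` = inclusion, `β = betaK` (`Q ↦ Q^q`), `w = Mod.wQ K (M * q * q) (q * q)`, `jm = φ ∘ toFN ι _` with `φ` helper23's `Mod.IsMid M q ζ φ`.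

KERNEL WARNING (`S18/V/Hyp.lean`): never prove equalities between elements of two different concrete subfields by `rfl`/`decide`; use `Subtype.ext`, `IntermediateField.coe_inclusion`, `coe_betaK`.

All proofs "on generators": `Mod.ringHom_ext_FK` (two ring homs out of `FK K N` which agree on `K` and on `Mod.jF K N d hd` are equal), `Mod.FK_eq_adjoin`, `Mod.qExpand_jS`, `Mod.coeffMap_jS`, `Mod.jS_Kb`.
-/

noncomputable section

namespace Fermat.Agent.S36.C0

open ModularCurve Polynomial IntermediateField AlgebraicCurve Fermat.Agent.S18 Fermat.Agent.S18.V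
open Fermat.Agent.S24 (Kb FN)
open Fermat.Agent.S34 Fermat.Agent.S34.V2

/-! ### C0-Deg : degrees -/

/-- (twin of `Mod.degLE_Kb` (`S34/Mod/Deg.lean`) with `GES.finrank_algA` replaced by `AuxL.finrank_algA_of_dvd (M * q) q hq (dvd_mul_left q M)`.) -/
theorem degLE_sq_Kb (M q : ℕ) [NeZero M] [NeZero q] (hq : q.Prime) :
    Mod.DegLE (FK Kb (M * q) : Set (LaurentSeries Kb)) (FK Kb (M * q * q)) q := by
  classical
  have e1 : FK Kb (M * q) = modularFunctionFieldBar (M * q) := Mod.FK_Kb _
  have e2 : FK Kb (M * q * q) = modularFunctionFieldBar (M * q * q) := Mod.FK_Kb _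
  rw [e1, e2]
  intro v hv
  let _ := GES.algA (M * q) q
  have hfd : FiniteDimensional (FN (M * q)) (FN (M * q * q)) := GES.finiteDimensional_algA (M * q) q
  have hfr : Module.finrank (FN (M * q)) (FN (M * q * q)) = q :=
    AuxL.finrank_algA_of_dvd (M * q) q hq (dvd_mul_left q M)
  let w : Fin (q + 1) → FN (M * q * q) := fun a => ⟨v a, hv a⟩
  have hnli : ¬ LinearIndependent (FN (M * q)) w := by
    intro hli
    have h1 := hli.fintype_card_le_finrank
    rw [hfr, Fintype.card_fin] at h1
    omega
  rw [Fintype.linearIndependent_iff] at hnli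
  push Not at hnli
  obtain ⟨g, hg, a₀, ha₀⟩ := hnli
  refine ⟨fun a => (g a : LaurentSeries Kb), fun a => (g a).2, ?_, ?_⟩
  · intro h0
    exact ha₀ (Subtype.ext (congrFun h0 a₀))
  · have h1 := congrArg (fun x : FN (M * q * q) => (x : LaurentSeries Kb)) hg
    have h2 : ((∑ a, g a • w a : FN (M * q * q)) : LaurentSeries Kb) =
        ∑ a, (g a : LaurentSeries Kb) * v a := by
      rw [AddSubmonoidClass.coe_finsetSum]
      rfl
    rw [← h2]
    exact h1

theorem degLE_sq {K : Type} [Field K] (ι : K →+* Kb) (M q : ℕ) [NeZero M] [NeZero q] (hq : q.Prime) :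
    Mod.DegLE (FK K (M * q) : Set (LaurentSeries K)) (FK K (M * q * q)) q :=
  Mod.DegLE.down ι (M * q) (M * q * q) q (degLE_sq_Kb M q hq)

/-- abstract: if `w ∘ α = β ∘ w₁` with `w`, `w₁` automorphisms then the degrees along `α` and `β` agree.
(`w` is a `w₁`-semilinear bijection from `(F, α)` to `(F, β)`: a family `b` is a basis / linearly independent along `α` iff `w ∘ b` is along `β`.  Cheapest: use `V2.finrank_le_of_dep` along `β`:
given `v : Fin (n+1) → F`, the family `w.symm ∘ v` is dependent along `α` (`n + 1 > finrank`; `Module.exists_nontrivial_relation_of_finrank_lt_card` or `LinearIndependent.fintype_card_le_finrank`), apply `w` to the relation.) -/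
theorem finrank_beta_le {F1 F : Type*} [Field F1] [Field F] (α β : F1 →+* F) (w : F ≃+* F)
    (w₁ : F1 ≃+* F1) (h : ∀ z, w (α z) = β (w₁ z)) (n : ℕ)
    (hfin : @FiniteDimensional F1 F _ _ α.toAlgebra.toModule)
    (hdeg : @Module.finrank F1 F _ _ α.toAlgebra.toModule ≤ n) :
    @FiniteDimensional F1 F _ _ β.toAlgebra.toModule ∧
      @Module.finrank F1 F _ _ β.toAlgebra.toModule ≤ n := by
  classical
  -- dependence along `α`
  have hdep : ∀ v : Fin (n + 1) → F, ∃ c : Fin (n + 1) → F1, c ≠ 0 ∧ ∑ a, α (c a) * v a = 0 := by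
    intro v
    letI := α.toAlgebra
    have hnli : ¬ LinearIndependent F1 v := by
      intro hli
      have h1 := hli.fintype_card_le_finrank
      rw [Fintype.card_fin] at h1
      omega
    rw [Fintype.linearIndependent_iff] at hnli
    push Not at hnli
    obtain ⟨g, hg, a₀, ha₀⟩ := hnli
    refine ⟨g, fun h0 => ha₀ (congrFun h0 a₀), ?_⟩
    rw [← hg]
    rfl
  letI := β.toAlgebra
  apply V2.finrank_le_of_dep
  intro v
  obtain ⟨c, hc0, hc⟩ := hdep (fun a => w.symm (v a))
  refine ⟨fun a => w₁ (c a), ?_, ?_⟩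
  · intro h0
    apply hc0
    funext a
    have := congrFun h0 a
    simpa using this
  · have h1 := congrArg w hc
    rw [map_sum, map_zero] at h1
    rw [← h1]
    apply Finset.sum_congr rfl
    intro a _
    rw [map_mul, h, RingEquiv.apply_symm_apply]
    rfl

end Fermat.Agent.S36.C0
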