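import Fermat.Agent.S36.C0.ThreeA
import Fermat.Agent.S36.Mod.MidProp

set_option autoImplicit false
set_option linter.unusedSectionVars false

/-!
# S36/C0 : inputs of the CONCRETE three-level context   (tasks C0-Beta, C0-WAlpha, C0-Deg, C0-ToFN, C0-Rho)

`K` any field of characteristic zero, `ι : K →+* ℚ̄`; levels `M`, `M * q`, `M * q * q` (`q ∤ M`).
`F1 = ↥(FK K (M * q))`, `F = ↥(FK K (M * q * q))`, `α` = inclusion, `β = betaK` (`Q ↦ Q^q`), `w = Mod.wQ K (M * q * q) (q * q)`, `jm = φ ∘ toFN ι _` with `φ` helper23's `Mod.IsMid M q ζ φ`.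

KERNEL WARNING (`S18/V/Hyp.lean`): never prove equalities between elements of two different concrete subfields by `rfl`/`decide`; use `Subtype.ext`, `IntermediateField.coe_inclusion`, `coe_betaK`.

All proofs "on generators": `Mod.ringHom_ext_FK` (two ring homs out of `FK K N` which agree on `K` and on `Mod.jF K N d hd` are equal), `Mod.FK_eq_adjoin`, `Mod.qExpand_jS`, `Mod.coeffMap_jS`, `Mod.jS_Kb`.
-/

noncomputable section

namespace Fermat.Agent.S36.C0

open ModularCurve Polynomial IntermediateField AlgebraicCurve Fermat.Agent.S18 Fermat.Agent.S18.V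
open Fermat.Agent.S24 (Kb FN)
open Fermat.Agent.S34 Fermat.Agent.S34.V2

/-! ### C0-ToFN : compatibility of `toFN ι` with `α`, `β`, `w_q` -/

section ToFN

variable {K : Type} [Field K] [CharZero K] (ι : K →+* Kb)

/-- (`Subtype.ext`; `toFN_coe`, `coe_alphaK`, `coe_heckeAlphaBar`.) -/
theorem toFN_alphaK (N q : ℕ) [NeZero N] [NeZero q] (z : ↥(FK K N)) :
    toFN ι (N * q) (alphaK K N q z) = heckeAlphaBar Kb N q (toFN ι N z) := by
  apply Subtype.ext
  rw [toFN_coe, coe_alphaK, coe_heckeAlphaBar, toFN_coe]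

/-- (`Subtype.ext`; `toFN_coe`, `coe_betaK`, `coe_heckeBetaBar`, `coeffMap_qExpand`.) -/
theorem toFN_betaK (N q : ℕ) [NeZero N] [NeZero q] (z : ↥(FK K N)) :
    toFN ι (N * q) (betaK K N q z) = heckeBetaBar Kb N q (toFN ι N z) := by
  apply Subtype.ext
  rw [toFN_coe, coe_betaK, coe_heckeBetaBar, toFN_coe, coeffMap_qExpand]

/-- helper23's Atkin-Lehner involution over `ℚ̄` restricts to helper13's `wQ K`.
(`Mod.ringHom_ext_FK` for `w₁.comp (toFN ι N)` and `(toFN ι N).comp (wQ K N Q)`.  Constants: `S36.Mod.toFN_algebraMap`, `hw.1`, `AlgEquiv.commutes`.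
Generators `d = d₁ * d₂`, `d₁ ∣ M`, `d₂ ∣ Q`: `toFN ι N (Mod.jF K N d hd) = S36.Mod.jdF N hd` (`Subtype.ext`, `Mod.coeffMap_jS`, `Mod.jS_Kb`, `S36.Mod.coe_jdF`), `hw.2` / `IsAL.apply_jdF`, `Mod.wQ_jF_mul`.) -/
theorem toFN_wQ {N M Q : ℕ} [NeZero N] (hN : N = M * Q) (hcop : Nat.Coprime M Q)
    {w₁ : FN N →+* FN N} (hw : S36.Mod.IsAL N M Q w₁) (z : ↥(FK K N)) :
    w₁ (toFN ι N z) = toFN ι N (Mod.wQ K N Q z) := by
  have hNpos : 0 < N := Nat.pos_of_ne_zero (NeZero.ne N)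
  have hQ : Q ∣ N := hN ▸ Dvd.intro_left M rfl
  have hQpos : 0 < Q := Nat.pos_of_dvd_of_pos hQ hNpos
  have hNQ : N / Q = M := by rw [hN, Nat.mul_div_cancel _ hQpos]
  have hc : Nat.Coprime Q (N / Q) := by rw [hNQ]; exact hcop.symm
  have key : w₁.comp (toFN ι N) =
      (toFN ι N).comp (Mod.wQ K N Q : Mod.FK K N →+* Mod.FK K N) := by
    apply Mod.ringHom_ext_FK
    · intro a
      have h1 : (Mod.wQ K N Q : Mod.FK K N →+* Mod.FK K N) (algebraMap K _ a) = algebraMap K _ a :=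
        (Mod.wQ K N Q).commutes a
      rw [RingHom.comp_apply, RingHom.comp_apply, h1, S36.Mod.toFN_algebraMap, hw.1]
    · intro d hd
      obtain ⟨d₁, d₂, h1, h2, rfl⟩ : ∃ d₁ d₂, d₁ ∣ M ∧ d₂ ∣ Q ∧ d = d₁ * d₂ := by
        have hd' := hd
        rw [hN] at hd'
        obtain ⟨d₁, d₂, h1, h2, h3⟩ := (Nat.dvd_mul).1 hd'
        exact ⟨d₁, d₂, h1, h2, h3.symm⟩
      obtain ⟨e₂, he₂⟩ := h2
      have hd₂ : 0 < d₂ := by
        rcases Nat.eq_zero_or_pos d₂ with h | h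
        · rw [h, zero_mul] at he₂
          omega
        · exact h
      have e1 : toFN ι N (Mod.jF K N (d₁ * d₂) hd) = S36.Mod.jdF N hd := by
        apply Subtype.ext
        rw [toFN_coe, S36.Mod.coe_jdF]
        show coeffMap ι (Mod.jS K _) = _
        rw [Mod.coeffMap_jS, Mod.jS_Kb]
      have hd' : d₂ * d₁ ∣ N := by rwa [mul_comm]
      have e2 : Mod.jF K N (d₁ * d₂) hd = Mod.jF K N (d₂ * d₁) hd' := by
        apply Subtype.ext
        show Mod.jS K _ = Mod.jS K _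
        rw [mul_comm]
      apply Subtype.ext
      rw [RingHom.comp_apply, RingHom.comp_apply, e1, hw.2 d₁ d₂ e₂ hd h1 he₂, toFN_coe]
      have e3 : (((Mod.wQ K N Q : Mod.FK K N →+* Mod.FK K N) (Mod.jF K N (d₁ * d₂) hd) :
          Mod.FK K N) : LaurentSeries K) = Mod.jS K (Q / d₂ * d₁) := by
        rw [e2]
        exact Mod.wQ_jF_mul K N Q hQ hc d₂ d₁ ⟨e₂, he₂⟩ (hNQ ▸ h1) hd'
      rw [e3, Mod.coeffMap_jS, Mod.jS_Kb, he₂, Nat.mul_div_cancel_left _ hd₂, mul_comm]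
  exact RingHom.congr_fun key z

end ToFN

end Fermat.Agent.S36.C0
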