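import Fermat.Agent.S36.C0.ThreeW
import Fermat.Agent.S36.C0.ThreeDeg
import Fermat.Agent.S36.C0.ThreeToFN

set_option autoImplicit false
set_option linter.unusedSectionVars false

/-!
# S36/C0 : the CONCRETE three-level context over `(K, ι)`

`exists_three`: for a concrete two-level context `T1` (`V2.IsConc M q T1`, from `C0.exists_two0`) over `R = A ∩ K` unramified (`q` irreducible in `R`) there is
`T : V3.Three ↥A ℚ̄ ↥(FK K (M * q * q)) T1` with `IsConc3 ι ζ T`.
-/

noncomputable section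

namespace Fermat.Agent.S36.C0

open ModularCurve Polynomial IntermediateField AlgebraicCurve Fermat.Agent.S18 Fermat.Agent.S18.V
open Fermat.Agent.S24 (Kb FN)
open Fermat.Agent.S34 Fermat.Agent.S34.V2 Fermat.Agent.S36.V3

/-- `T` is the concrete three-level context of levels `M`, `M * q`, `M * q * q` over `(K, ι)`, middle cusp with parameter `ζ`. -/
structure IsConc3 {K : Type} [Field K] [CharZero K] (ι : K →+* Kb) {A : ValuationSubring Kb}
    [IsDiscreteValuationRing ↥(A.comap ι)] {M q : ℕ} [NeZero M] [NeZero q] (ζ : Kbˣ) {E : Type}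
    [Field E] [Algebra K E] [Algebra E ↥(FK K (M * q))]
    [Algebra ↥(FK K (M * q)) ↥(FK K (M * q * q))]
    {T1 : Two ↥(A.comap ι) K q E ↥(FK K (M * q))}
    (T : Three ↥A Kb ↥(FK K (M * q * q)) T1) : Prop where
  alg_eq : ∀ z : ↥(FK K (M * q)), (algebraMap ↥(FK K (M * q)) ↥(FK K (M * q * q)) z).1 = z.1
  jF_eq : ∀ z, T.jF z = z.1
  β_eq : ∀ z, (T.β z).1 = qExpand K q z.1
  w_eq : ∀ z, T.w z = Mod.wQ K (M * q * q) (q * q) z
  ρ_eq : T.ρ = ι
  ζ_eq : ((T.ζ : ↥A) : Kb) = ζ
  jm_eq : ∃ φ : FN (M * q * q) →+* LaurentSeries Kb, S36.Mod.IsMid M q ζ φ ∧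
    ∀ z, T.jm z = φ (toFN ι (M * q * q) z)

theorem exists_three (M q : ℕ) [NeZero M] [NeZero q] (hq : q.Prime) (hqM : ¬ q ∣ M)
    (A : ValuationSubring Kb) (K : Type) [Field K] [CharZero K] (ι : K →+* Kb)
    [IsDiscreteValuationRing ↥(A.comap ι)] (hunr : Irreducible (q : ↥(A.comap ι)))
    {E : Type} [Field E] [Algebra K E] [Algebra E ↥(FK K (M * q))]
    (T1 : Two ↥(A.comap ι) K q E ↥(FK K (M * q))) (hT1 : IsConc M q T1)
    (ζ : Kbˣ) (hζ : IsPrimitiveRoot ζ q) :
    ∃ (_ : Algebra ↥(FK K (M * q)) ↥(FK K (M * q * q)))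
      (_ : IsScalarTower K ↥(FK K (M * q)) ↥(FK K (M * q * q)))
      (T : Three ↥A Kb ↥(FK K (M * q * q)) T1), IsConc3 ι ζ T := by
  obtain ⟨φ, hφ⟩ := S36.Mod.exists_isMid hq hqM hζ
  obtain ⟨w₁, hw₁⟩ := S36.Mod.exists_isAL (M * q) M q rfl
    ((Nat.Prime.coprime_iff_not_dvd hq).2 hqM).symm
  obtain ⟨z, hz⟩ := GES.exists_unit_of_pow_eq_one A hq.ne_zero ζ hζ.pow_eq_one
  have hle : FK K (M * q) ≤ FK K (M * q * q) := Mod.FK_le (M * q) q
  letI : Algebra ↥(FK K (M * q)) ↥(FK K (M * q * q)) := algIncl hle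
  have hzζ : Units.map (algebraMap ↥A Kb : ↥A →* Kb) z = ζ := Units.ext hz
  have hα : ∀ y : ↥(FK K (M * q)),
      algebraMap ↥(FK K (M * q)) ↥(FK K (M * q * q)) y = alphaK K (M * q) q y := fun _ => rfl
  have hdeg := degLE_sq ι M q hq
  have hβ := finrank_beta_le (algebraMap ↥(FK K (M * q)) ↥(FK K (M * q * q)))
    (betaK K (M * q) q).toRingHom (Mod.wQ K (M * q * q) (q * q)).toRingEquiv
    (Mod.wQ K (M * q) q).toRingEquiv (fun y => wsq_alpha K hq hqM y) q
    (DegLE.finite hle hdeg) (DegLE.finrank_le hle hdeg)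
  refine ⟨algIncl hle, algIncl_tower hle,
    { jF := (FK K (M * q * q)).val
      compat := fun y => by
        rw [hT1.jF_eq]
        exact IntermediateField.coe_inclusion hle y
      inQF := fun y => InQF.of_mem_FK y.2
      β := betaK K (M * q) q
      jF_β := fun y => by
        rw [hT1.jF_eq]
        rfl
      w := Mod.wQ K (M * q * q) (q * q)
      w_w := wsq_wsq K hq hqM
      w_α := fun y => by
        rw [hT1.w_eq, hα]
        exact wsq_alpha K hq hqM y
      ρ := ι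
      ρR := rhoR ι A
      hρ := rhoR_spec ι A
      hloc := rhoR_local ι A
      ζ := z
      hζ := by
        have h1 : IsPrimitiveRoot (Units.map (algebraMap ↥A Kb : ↥A →* Kb) z) q := hzζ ▸ hζ
        exact IsPrimitiveRoot.of_map_of_injective
          (f := Units.map (algebraMap ↥A Kb : ↥A →* Kb))
          (hf := Units.map_injective (IsFractionRing.injective ↥A Kb)) h1
      jm := φ.comp (toFN ι (M * q * q))
      jm_α := fun y => by
        rw [hα, RingHom.comp_apply, toFN_alphaK, hφ.alpha, hT1.jF_eq, toFN_coe]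
      jm_β := fun y => by
        rw [RingHom.comp_apply, toFN_betaK, hφ.comp_beta hq hζ.pow_eq_one hw₁, hzζ,
          toFN_wQ ι rfl ((Nat.Prime.coprime_iff_not_dvd hq).2 hqM).symm hw₁, toFN_coe, hT1.jF_eq,
          hT1.w_eq]
      fin_α := DegLE.finite hle hdeg
      deg_α := DegLE.finrank_le hle hdeg
      fin_β := hβ.1
      deg_β := hβ.2
      hunr := hunr }, ?_⟩
  exact
    { alg_eq := fun y => IntermediateField.coe_inclusion hle y
      jF_eq := fun _ => rfl
      β_eq := fun _ => rfl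
      w_eq := fun _ => rfl
      ρ_eq := rfl
      ζ_eq := hz
      jm_eq := ⟨φ, hφ, fun _ => rfl⟩ }

end Fermat.Agent.S36.C0
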