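import Fermat.Agent.S36.C0.NormAbs
import Fermat.Agent.S36.C0.ThreeB
import Fermat.Agent.S36.AuxL.DegBeta

set_option autoImplicit false
set_option linter.unusedSectionVars false

/-!
# S36/C0 : the norms along `α`, `β` commute with `toFN ι`   (task C0-NormGen + assembly)

`toFN_norm_alpha`, `toFN_norm_beta` = the fields `norm_α`, `norm_β` of `Core.Geo36`.
-/

noncomputable section

namespace Fermat.Agent.S36.C0

open ModularCurve Polynomial IntermediateField AlgebraicCurve Fermat.Agent.S18 Fermat.Agent.S18.V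
open Fermat.Agent.S24 (Kb FN)
open Fermat.Agent.S34 Fermat.Agent.S34.V2 Fermat.Agent.S36.Norm

variable {K : Type} [Field K] [CharZero K] (ι : K →+* Kb)

/-- `F_N = ℚ̄(X₀(N))` is generated by the constants and `F_{N,K}`.
(Every `f : FN N` is `thetaIncl N u / thetaIncl N w` with `u w : A0 N` (`S24.thetaIncl_exists_div`), `A0 N = Algebra.adjoin Kb {Jser d | d ∣ N}`: `Algebra.adjoin_induction` as in `S18.HSide.isIntegralElem_toFN`
(`S18/HSide.lean`, copy its `key`): generators are `toFN ι N (HSide.jdK K N d hd)` (`HSide.toFN_jdK`), constants are in `S` by `hS`.) -/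
theorem closure_toFN_eq_top (N : ℕ) [NeZero N] (S : Set (FN N))
    (hS : ∀ a : Kb, algebraMap Kb (FN N) a ∈ S) :
    Subfield.closure (S ∪ Set.range (toFN ι N)) = ⊤ := by
  have key : ∀ (y : LaurentSeries Kb), y ∈ Fermat.Agent.S24.A0 N →
      ∃ g : FN N, (g : LaurentSeries Kb) = y ∧
        g ∈ Subfield.closure (S ∪ Set.range (toFN ι N)) := by
    intro y hy
    induction hy using Algebra.adjoin_induction with
    | mem y hy =>
      obtain ⟨d, hd, rfl⟩ := hy
      have : NeZero d := ⟨fun h => NeZero.ne N (by subst h; simpa using hd)⟩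
      exact ⟨toFN ι N (HSide.jdK K N d hd), HSide.toFN_jdK ι N d hd,
        Subfield.subset_closure (Or.inr ⟨_, rfl⟩)⟩
    | algebraMap a =>
      exact ⟨algebraMap Kb (FN N) a, rfl, Subfield.subset_closure (Or.inl (hS a))⟩
    | add y z hy hz h1 h2 =>
      obtain ⟨g1, rfl, h1⟩ := h1
      obtain ⟨g2, rfl, h2⟩ := h2
      exact ⟨g1 + g2, rfl, add_mem h1 h2⟩
    | mul y z hy hz h1 h2 =>
      obtain ⟨g1, rfl, h1⟩ := h1
      obtain ⟨g2, rfl, h2⟩ := h2
      exact ⟨g1 * g2, rfl, mul_mem h1 h2⟩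
  rw [eq_top_iff]
  intro f _
  obtain ⟨u, w, hw, rfl⟩ := Fermat.Agent.S24.thetaIncl_exists_div N f
  obtain ⟨gu, hgu, hu⟩ := key u.1 u.2
  obtain ⟨gw, hgw, hw'⟩ := key w.1 w.2
  have e1 : Fermat.Agent.S24.thetaIncl N u = gu := Subtype.ext hgu.symm
  have e2 : Fermat.Agent.S24.thetaIncl N w = gw := Subtype.ext hgw.symm
  rw [e1, e2]
  exact div_mem hu hw'

theorem toFN_norm_alpha (M q : ℕ) [NeZero M] [NeZero q] (hq : q.Prime)
    (u : ↥(FK K (M * q * q))) :
    toFN ι (M * q) (normAlong (alphaK K (M * q) q).toRingHom u) =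
      GES.normA (M * q) q (toFN ι (M * q * q) u) := by
  have hle : FK K (M * q) ≤ FK K (M * q * q) := Mod.FK_le (M * q) q
  have hdeg := degLE_sq ι M q hq
  exact norm_baseChange (alphaK K (M * q) q).toRingHom (heckeAlphaBar Kb (M * q) q).toRingHom
    (toFN ι (M * q)) (toFN ι (M * q * q)) (fun y => toFN_alphaK ι (M * q) q y) q
    (DegLE.finite hle hdeg) (DegLE.finrank_le hle hdeg) (GES.finiteDimensional_algA (M * q) q)
    (AuxL.finrank_algA_of_dvd (M * q) q hq (dvd_mul_left q M)).ge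
    (closure_toFN_eq_top ι (M * q * q) _ fun a =>
      ⟨algebraMap Kb (FN (M * q)) a, (heckeAlphaBar Kb (M * q) q).commutes a⟩) u

theorem toFN_norm_beta (M q : ℕ) [NeZero M] [NeZero q] (hq : q.Prime) (hqM : ¬ q ∣ M)
    (u : ↥(FK K (M * q * q))) :
    toFN ι (M * q) (normAlong (betaK K (M * q) q).toRingHom u) =
      AuxL.normB (M * q) q (toFN ι (M * q * q) u) := by
  have hle : FK K (M * q) ≤ FK K (M * q * q) := Mod.FK_le (M * q) q
  have hdeg := degLE_sq ι M q hq
  have hβ := finrank_beta_le (alphaK K (M * q) q).toRingHom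
    (betaK K (M * q) q).toRingHom (Mod.wQ K (M * q * q) (q * q)).toRingEquiv
    (Mod.wQ K (M * q) q).toRingEquiv (fun y => wsq_alpha K hq hqM y) q
    (DegLE.finite hle hdeg) (DegLE.finrank_le hle hdeg)
  exact norm_baseChange (betaK K (M * q) q).toRingHom (heckeBetaBar Kb (M * q) q).toRingHom
    (toFN ι (M * q)) (toFN ι (M * q * q)) (fun y => toFN_betaK ι (M * q) q y) q
    hβ.1 hβ.2 (AuxL.finiteDimensional_algB (M * q) q)
    (AuxL.finrank_algB_of_dvd (M * q) q hq (dvd_mul_left q M)).ge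
    (closure_toFN_eq_top ι (M * q * q) _ fun a =>
      ⟨algebraMap Kb (FN (M * q)) a, (heckeBetaBar Kb (M * q) q).commutes a⟩) u

end Fermat.Agent.S36.C0
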