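import Fermat.Agent.S36.Norm.Along

set_option autoImplicit false
set_option linter.unusedSectionVars false

/-!
# S36/C0 : base change of the norm (abstract)   (task C0-NormAbs; Mathlib only)

`α : F1 → F`, `α' : G1 → G` finite field extensions, `τ1 : F1 → G1`, `τ : F → G` with `τ ∘ α = α' ∘ τ1`; `[F : F1] ≤ n ≤ [G : G1]` and `G` is generated (as a field) by `α' G1` and `τ F`.
Then `τ1 (N_α u) = N_α' (τ u)`.

SKETCH.  `letI := α.toAlgebra; letI := α'.toAlgebra`.  `b := Module.finBasis F1 F` (index `Fin d`, `d = finrank F1 F ≤ n`).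
1. `S := Submodule.span G1 (Set.range (τ ∘ b))` is closed under multiplication (`b i * b j = ∑ k, c k • b k` ⟹ `τ (b i) * τ (b j) = ∑ k, τ1 (c k) • τ (b k)`; `Submodule.span_induction₂` or `Submodule.span_mul_span`) and contains `1`
   (`1 = ∑ c k • b k`), more generally `τ y ∈ S` for all `y`, and `α' c = c • 1 ∈ S`.
2. So `S` is (the carrier of) a `G1`-subalgebra of the field `G`, finite dimensional, hence a subfield (`Subalgebra.isField_of_algebraic` / `inv_mem_of_algebraic`-type lemma: for `0 ≠ s ∈ S`, `s⁻¹ ∈ Algebra.adjoin G1 {s}`: `Algebra.IsIntegral`/`IsAlgebraic.inv_mem_adjoin`-style, see `Subalgebra.inv_mem_of_algebraic`);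
   it contains `Set.range α' ∪ Set.range τ`, so by `hgen` it is everything: `⊤ ≤ span`.
3. `d ≥ finrank G1 G ≥ n ≥ d` (`finrank_le_of_span..`: `finrank_span_le_card`, `Set.finrank`), so `b' := basisOfTopLeSpanOfCardEqFinrank (τ ∘ b) _ _`.
4. `Algebra.leftMulMatrix b' (τ u) = (Algebra.leftMulMatrix b u).map τ1`: entrywise by `Algebra.leftMulMatrix_eq_repr_mul`; `u * b j = ∑ i, M i j • b i` ⟹ `τ u * b' j = ∑ i, τ1 (M i j) • b' i` and uniqueness of coordinates (`Basis.repr_sum_self`-type).
5. `Algebra.norm_eq_matrix_det` for both, `RingHom.map_det`.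
-/

noncomputable section

namespace Fermat.Agent.S36.C0

open Fermat.Agent.S36.Norm

theorem normAbs_aux {F1 F G1 G : Type*} [Field F1] [Field F] [Field G1] [Field G] [Algebra F1 F]
    [Algebra G1 G] (τ1 : F1 →+* G1) (τ : F →+* G)
    (hcomm : ∀ y, τ (algebraMap F1 F y) = algebraMap G1 G (τ1 y)) (n : ℕ)
    [FiniteDimensional F1 F] (hdeg : Module.finrank F1 F ≤ n) [FiniteDimensional G1 G]
    (hdeg' : n ≤ Module.finrank G1 G)
    (hgen : Subfield.closure (Set.range (algebraMap G1 G) ∪ Set.range τ) = ⊤) (u : F) :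
    τ1 (Algebra.norm F1 u) = Algebra.norm G1 (τ u) := by
  classical
  set b := Module.finBasis F1 F with hb
  -- expansion of `τ y`
  have hexp : ∀ y : F, τ y = ∑ i, τ1 (b.repr y i) • τ (b i) := by
    intro y
    conv_lhs => rw [← b.sum_repr y]
    rw [map_sum]
    refine Finset.sum_congr rfl fun i _ => ?_
    rw [Algebra.smul_def, map_mul, hcomm, Algebra.smul_def]
  -- the subalgebra generated by `τ F` is everything
  set A : Subalgebra G1 G := Algebra.adjoin G1 (Set.range τ) with hA
  have hAtop : A = ⊤ := by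
    have hinv : ∀ x ∈ A, x⁻¹ ∈ A := fun x hx =>
      Subalgebra.inv_mem_of_algebraic A (x := ⟨x, hx⟩) (Algebra.IsAlgebraic.isAlgebraic x)
    have hle : Subfield.closure (Set.range (algebraMap G1 G) ∪ Set.range τ) ≤
        (A.toIntermediateField hinv).toSubfield := by
      rw [Subfield.closure_le]
      rintro x (⟨c, rfl⟩ | hx)
      · exact A.algebraMap_mem c
      · exact Algebra.subset_adjoin hx
    rw [hgen] at hle
    rw [eq_top_iff]
    intro x _
    exact hle (Subfield.mem_top x)
  have hspan : (⊤ : Submodule G1 G) ≤ Submodule.span G1 (Set.range (τ ∘ b)) := by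
    have h1 : Subalgebra.toSubmodule A = Submodule.span G1 (Set.range τ) := by
      rw [hA, Algebra.adjoin_eq_span]
      congr 1
      have : (Set.range τ) = ((MonoidHom.mrange (τ : F →* G) : Submonoid G) : Set G) := by
        rw [MonoidHom.coe_mrange]
        rfl
      rw [this, Submonoid.closure_eq]
    rw [hAtop, Algebra.top_toSubmodule] at h1
    rw [h1, Submodule.span_le]
    rintro _ ⟨y, rfl⟩
    rw [hexp y]
    exact Submodule.sum_mem _ fun i _ =>
      Submodule.smul_mem _ _ (Submodule.subset_span ⟨i, rfl⟩)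
  have hcard : Fintype.card (Fin (Module.finrank F1 F)) = Module.finrank G1 G := by
    rw [Fintype.card_fin]
    apply le_antisymm (hdeg.trans hdeg')
    have h1 := finrank_range_le_card (R := G1) (τ ∘ b)
    rw [Set.finrank, top_le_iff.1 hspan, finrank_top, Fintype.card_fin] at h1
    exact h1
  set b' := basisOfTopLeSpanOfCardEqFinrank (τ ∘ b) hspan hcard with hb'
  have hb'i : ∀ i, b' i = τ (b i) := fun i => by
    rw [hb', coe_basisOfTopLeSpanOfCardEqFinrank]
    rfl
  have hrepr : ∀ (y : F) (i), b'.repr (τ y) i = τ1 (b.repr y i) := by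
    intro y i
    have h1 : τ y = ∑ i, τ1 (b.repr y i) • b' i := by
      rw [hexp y]
      exact Finset.sum_congr rfl fun i _ => by rw [hb'i]
    rw [h1, b'.repr_sum_self]
  have hmat : Algebra.leftMulMatrix b' (τ u) = τ1.mapMatrix (Algebra.leftMulMatrix b u) := by
    ext i j
    rw [Algebra.leftMulMatrix_eq_repr_mul, hb'i, ← map_mul, hrepr, RingHom.mapMatrix_apply,
      Matrix.map_apply, Algebra.leftMulMatrix_eq_repr_mul]
  rw [Algebra.norm_eq_matrix_det b, Algebra.norm_eq_matrix_det b', hmat, RingHom.map_det]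

theorem norm_baseChange {F1 F G1 G : Type*} [Field F1] [Field F] [Field G1] [Field G]
    (α : F1 →+* F) (α' : G1 →+* G) (τ1 : F1 →+* G1) (τ : F →+* G)
    (hcomm : ∀ y, τ (α y) = α' (τ1 y)) (n : ℕ)
    (hfin : @FiniteDimensional F1 F _ _ α.toAlgebra.toModule)
    (hdeg : @Module.finrank F1 F _ _ α.toAlgebra.toModule ≤ n)
    (hfin' : @FiniteDimensional G1 G _ _ α'.toAlgebra.toModule)
    (hdeg' : n ≤ @Module.finrank G1 G _ _ α'.toAlgebra.toModule)
    (hgen : Subfield.closure (Set.range α' ∪ Set.range τ) = ⊤) (u : F) :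
    τ1 (normAlong α u) = normAlong α' (τ u) := by
  let _ := α.toAlgebra
  let _ := α'.toAlgebra
  exact normAbs_aux τ1 τ hcomm n hdeg hdeg' hgen u

end Fermat.Agent.S36.C0
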