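import Fermat.Agent.S34.V2.ConcB
import Fermat.Agent.S36.V3.Three

set_option autoImplicit false
set_option linter.unusedSectionVars false

/-!
# S36/C0 : inputs of the CONCRETE three-level context   (tasks C0-Beta, C0-WAlpha, C0-Deg, C0-ToFN, C0-Rho)

`K` any field of characteristic zero, `ι : K →+* ℚ̄`; levels `M`, `M * q`, `M * q * q` (`q ∤ M`).
`F1 = ↥(FK K (M * q))`, `F = ↥(FK K (M * q * q))`, `α` = inclusion, `β = betaK` (`Q ↦ Q^q`), `w = Mod.wQ K (M * q * q) (q * q)`, `jm = φ ∘ toFN ι _` with `φ` helper23's `Mod.IsMid M q ζ φ`.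

KERNEL WARNING (`S18/V/Hyp.lean`): never prove equalities between elements of two different concrete subfields by `rfl`/`decide`; use `Subtype.ext`, `IntermediateField.coe_inclusion`, `coe_betaK`.

All proofs "on generators": `Mod.ringHom_ext_FK` (two ring homs out of `FK K N` which agree on `K` and on `Mod.jF K N d hd` are equal), `Mod.FK_eq_adjoin`, `Mod.qExpand_jS`, `Mod.coeffMap_jS`, `Mod.jS_Kb`.
-/

noncomputable section

namespace Fermat.Agent.S36.C0

open ModularCurve Polynomial IntermediateField AlgebraicCurve Fermat.Agent.S18 Fermat.Agent.S18.V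
open Fermat.Agent.S24 (Kb FN)
open Fermat.Agent.S34 Fermat.Agent.S34.V2

/-! ### C0-Beta : `β = V_q` over `K` -/

/-- (`Mod.FK_eq_adjoin K N`, `IntermediateField.adjoin_induction`: generators `jS K d ↦ jS K (q * d)` (`Mod.qExpand_jS`, `Mod.jS_mem`, `q * d ∣ N * q`), constants
`algebraMap_laurentSeries_eq_single`, `qExpand_single`; `map_add`, `map_mul`, `map_inv₀`.) -/
theorem qExpand_mem_FK (K : Type) [Field K] (N q : ℕ) [NeZero N] [NeZero q] {z : LaurentSeries K}
    (hz : z ∈ FK K N) : qExpand K q z ∈ FK K (N * q) := by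
  have hz' : z ∈ IntermediateField.adjoin K (Set.range (Mod.jFam K N)) := by
    rw [← Mod.FK_eq_adjoin]
    exact hz
  clear hz
  induction hz' using IntermediateField.adjoin_induction with
  | mem x hx =>
    obtain ⟨⟨d, hd⟩, rfl⟩ := hx
    show qExpand K q (Mod.jS K d) ∈ _
    rw [Mod.qExpand_jS]
    exact Mod.jS_mem K (by rw [mul_comm]; exact Nat.mul_dvd_mul_right hd q)
  | algebraMap a =>
    rw [algebraMap_laurentSeries_eq_single, qExpand_single, mul_zero,
      ← algebraMap_laurentSeries_eq_single]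
    exact (FK K (N * q)).algebraMap_mem a
  | add x y _ _ hx hy =>
    rw [map_add]
    exact add_mem hx hy
  | inv x _ hx =>
    rw [map_inv₀]
    exact inv_mem hx
  | mul x y _ _ hx hy =>
    rw [map_mul]
    exact mul_mem hx hy

/-- `β = V_q : F_{N,K} → F_{Nq,K}`. -/
def betaK (K : Type) [Field K] (N q : ℕ) [NeZero N] [NeZero q] : ↥(FK K N) →ₐ[K] ↥(FK K (N * q)) where
  toFun z := ⟨qExpand K q z.1, qExpand_mem_FK K N q z.2⟩
  map_one' := Subtype.ext (map_one (qExpand K q))
  map_zero' := Subtype.ext (map_zero (qExpand K q))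
  map_mul' f g := Subtype.ext (map_mul (qExpand K q) f.1 g.1)
  map_add' f g := Subtype.ext (map_add (qExpand K q) f.1 g.1)
  commutes' a := Subtype.ext (by
    show qExpand K q (algebraMap K (LaurentSeries K) a) = algebraMap K (LaurentSeries K) a
    rw [algebraMap_laurentSeries_eq_single, qExpand_single, mul_zero])

theorem coe_betaK (K : Type) [Field K] (N q : ℕ) [NeZero N] [NeZero q] (z : ↥(FK K N)) :
    (betaK K N q z).1 = qExpand K q z.1 := rfl

/-- the inclusion `F_{N,K} → F_{Nq,K}`. -/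
def alphaK (K : Type) [Field K] (N q : ℕ) [NeZero N] [NeZero q] : ↥(FK K N) →ₐ[K] ↥(FK K (N * q)) :=
  IntermediateField.inclusion (Mod.FK_le N q)

theorem coe_alphaK (K : Type) [Field K] (N q : ℕ) [NeZero N] [NeZero q] (z : ↥(FK K N)) :
    (alphaK K N q z).1 = z.1 := IntermediateField.coe_inclusion _ z

/-! ### C0-Rho : the coefficient extension `(A ∩ K, K) → (A, ℚ̄)` -/

section Rho

variable {K : Type} [Field K] (ι : K →+* Kb) (A : ValuationSubring Kb)

/-- `A ∩ K → A`. -/
def rhoR : ↥(A.comap ι) →+* ↥A where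
  toFun r := ⟨ι r.1, r.2⟩
  map_one' := Subtype.ext (map_one ι)
  map_zero' := Subtype.ext (map_zero ι)
  map_mul' a b := Subtype.ext (map_mul ι a.1 b.1)
  map_add' a b := Subtype.ext (map_add ι a.1 b.1)

theorem rhoR_spec (r : ↥(A.comap ι)) :
    ι (algebraMap ↥(A.comap ι) K r) = algebraMap ↥A Kb (rhoR ι A r) := rfl

/-- (`VSide.isUnit_iff` on both sides, `DVR.mem_nonunits_comap`.) -/
theorem rhoR_local (r : ↥(A.comap ι)) (hr : ¬ IsUnit r) : ¬ IsUnit (rhoR ι A r) := by
  rw [VSide.isUnit_iff, not_not] at hr ⊢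
  exact (DVR.mem_nonunits_comap ι A r.1).1 hr

end Rho

end Fermat.Agent.S36.C0
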