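import Fermat.Agent.S36.C0.ThreeA

set_option autoImplicit false
set_option linter.unusedSectionVars false

/-!
# S36/C0 : inputs of the CONCRETE three-level context   (tasks C0-Beta, C0-WAlpha, C0-Deg, C0-ToFN, C0-Rho)

`K` any field of characteristic zero, `ι : K →+* ℚ̄`; levels `M`, `M * q`, `M * q * q` (`q ∤ M`).
`F1 = ↥(FK K (M * q))`, `F = ↥(FK K (M * q * q))`, `α` = inclusion, `β = betaK` (`Q ↦ Q^q`), `w = Mod.wQ K (M * q * q) (q * q)`, `jm = φ ∘ toFN ι _` with `φ` helper23's `Mod.IsMid M q ζ φ`.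

KERNEL WARNING (`S18/V/Hyp.lean`): never prove equalities between elements of two different concrete subfields by `rfl`/`decide`; use `Subtype.ext`, `IntermediateField.coe_inclusion`, `coe_betaK`.

All proofs "on generators": `Mod.ringHom_ext_FK` (two ring homs out of `FK K N` which agree on `K` and on `Mod.jF K N d hd` are equal), `Mod.FK_eq_adjoin`, `Mod.qExpand_jS`, `Mod.coeffMap_jS`, `Mod.jS_Kb`.
-/

noncomputable section

namespace Fermat.Agent.S36.C0

open ModularCurve Polynomial IntermediateField AlgebraicCurve Fermat.Agent.S18 Fermat.Agent.S18.V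
open Fermat.Agent.S24 (Kb FN)
open Fermat.Agent.S34 Fermat.Agent.S34.V2

/-! ### C0-WAlpha : `w_{q²} ∘ α = β ∘ w_q` -/

theorem coprime_sq {M q : ℕ} [NeZero q] (hq : q.Prime) (hqM : ¬ q ∣ M) :
    Nat.Coprime (q * q) (M * q * q / (q * q)) := by
  rw [mul_assoc, Nat.mul_div_cancel _ (Nat.mul_pos hq.pos hq.pos)]
  exact Nat.Coprime.mul_left ((Nat.Prime.coprime_iff_not_dvd hq).2 hqM)
    ((Nat.Prime.coprime_iff_not_dvd hq).2 hqM)

theorem coprime_one {M q : ℕ} [NeZero q] (hq : q.Prime) (hqM : ¬ q ∣ M) :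
    Nat.Coprime q (M * q / q) := by
  rw [Nat.mul_div_cancel _ hq.pos]
  exact (Nat.Prime.coprime_iff_not_dvd hq).2 hqM

theorem wsq_wsq (K : Type) [Field K] [CharZero K] {M q : ℕ} [NeZero M] [NeZero q] (hq : q.Prime)
    (hqM : ¬ q ∣ M) (z : ↥(FK K (M * q * q))) :
    Mod.wQ K (M * q * q) (q * q) (Mod.wQ K (M * q * q) (q * q) z) = z :=
  Mod.wQ_wQ K (M * q * q) (q * q) ⟨M, by ring⟩ (coprime_sq hq hqM) z

/-- (`Mod.ringHom_ext_FK` for the two ring homs `FK K (M * q) →+* FK K (M * q * q)`.  Constants: `AlgEquiv.commutes`, `AlgHom.commutes`.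
Generator `d ∣ M * q`: `d = e * f`, `e ∣ q`, `f ∣ M` (`(Nat.dvd_mul).1`, after `mul_comm`); `Mod.wQ_jF_mul` at both levels (`N / Q = M`): `w_{q²} j_{ef} = j_{(q²/e) f}`, `w_q j_{ef} = j_{(q/e) f}`,
`Mod.qExpand_jS`; `e = 1` or `e = q` (`(Nat.dvd_prime hq).1`): `q * q / 1 = q * (q / 1)`, `q * q / q = q * (q / q)`.  Compare in `LaurentSeries K` by `Subtype.ext`, `coe_alphaK`, `coe_betaK`.) -/
theorem wsq_alpha (K : Type) [Field K] [CharZero K] {M q : ℕ} [NeZero M] [NeZero q] (hq : q.Prime)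
    (hqM : ¬ q ∣ M) (z : ↥(FK K (M * q))) :
    Mod.wQ K (M * q * q) (q * q) (alphaK K (M * q) q z) = betaK K (M * q) q (Mod.wQ K (M * q) q z) := by
  have h : ((Mod.wQ K (M * q * q) (q * q) : ↥(FK K (M * q * q)) →+* ↥(FK K (M * q * q)))).comp
      (alphaK K (M * q) q : ↥(FK K (M * q)) →+* ↥(FK K (M * q * q))) =
      (betaK K (M * q) q : ↥(FK K (M * q)) →+* ↥(FK K (M * q * q))).comp
        (Mod.wQ K (M * q) q : ↥(FK K (M * q)) →+* ↥(FK K (M * q))) := by
    apply Mod.ringHom_ext_FK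
    · intro a
      simp only [RingHom.comp_apply, RingHom.coe_coe, AlgHom.commutes, AlgEquiv.commutes]
    · intro d hd
      simp only [RingHom.comp_apply, RingHom.coe_coe]
      rw [mul_comm] at hd
      obtain ⟨e, f, he, hf, rfl⟩ := (Nat.dvd_mul).1 hd
      have hd1 : e * f ∣ M * q := by rw [mul_comm M q]; exact hd
      have hd2 : e * f ∣ M * q * q := hd1.trans (dvd_mul_right _ _)
      have h1 : alphaK K (M * q) q (Mod.jF K (M * q) (e * f) hd1) =
          Mod.jF K (M * q * q) (e * f) hd2 := Subtype.ext (coe_alphaK K (M * q) q _)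
      rw [h1]
      apply Subtype.ext
      rw [coe_betaK]
      have hA := Mod.wQ_jF_mul K (M * q * q) (q * q) ⟨M, by ring⟩ (coprime_sq hq hqM) e f
        (he.trans (dvd_mul_right q q))
        (by rw [mul_assoc, Nat.mul_div_cancel _ (Nat.mul_pos hq.pos hq.pos)]; exact hf) hd2
      have hB := Mod.wQ_jF_mul K (M * q) q (dvd_mul_left q M) (coprime_one hq hqM) e f he
        (by rw [Nat.mul_div_cancel _ hq.pos]; exact hf) hd1
      refine hA.trans ?_
      rw [show (Mod.wQ K (M * q) q (Mod.jF K (M * q) (e * f) hd1)).1 = Mod.jS K (q / e * f) from hB,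
        Mod.qExpand_jS]
      congr 1
      rw [← mul_assoc, Nat.mul_div_assoc q he]
  exact congrArg (fun φ : ↥(FK K (M * q)) →+* ↥(FK K (M * q * q)) => φ z) h

end Fermat.Agent.S36.C0
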